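import Mathlib
import Fermat.Prelude.Def_AlgebraicCurve_DivisorClassGroup
import Fermat.Agent.Lib.RR.Defs
import Fermat.Agent.Lib.RR.Ord
import Fermat.Agent.Lib.RR.H383.ValRing
import Fermat.Agent.S24.FFFinite

/-!
# S17 / tower H, wall leaf G1 (helper440): points of the cone are places

`F / K` a function field of one variable (`FF1 K F`), `x : ι → F` a finite family of functions.
The *cone* of `x` is the set of `y : ι → K` killed by every homogeneous polynomial relation of
the `x i` (`OnCone x y`).

* `exists_place_of_onCone` (**G1**): if `y ≠ 0` is on the cone and `y j ≠ 0` then `x j ≠ 0` and there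
  is a place `P` at which all `x i / x j` are regular with value `y i / y j`:
  `x i / x j - y i / y j ∈ 𝔪_P` for all `i`.  (Dehomogenise, Chevalley, discreteness of the
  valuation rings of a function field.)
* `exists_valuationSubring_of_onCone`: the same without `FF1` (valuation subring instead of place).
* `onCone_of_place` (converse): if all `x i / x j` are regular at `P` with values `c i` then `c` is
  on the cone; `exists_regular_index`: such a `j` exists for every place and every `x ≠ 0`.
-/

set_option autoImplicit false

noncomputable section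

open AlgebraicCurve MvPolynomial

namespace Fermat.Agent.S17.H440

variable {K F : Type*} [Field K] [Field F] [Algebra K F] {ι : Type*}

/-- `y` is killed by all homogeneous polynomial relations (with coefficients in `K`) of the
family `x`. -/
def OnCone (x : ι → F) (y : ι → K) : Prop :=
  ∀ (n : ℕ) (p : MvPolynomial ι K), p.IsHomogeneous n → aeval x p = 0 → eval y p = 0

/-- Evaluation of a homogeneous polynomial at a scaled point. -/
theorem aeval_mul_of_isHomogeneous {p : MvPolynomial ι K} {n : ℕ} (hp : p.IsHomogeneous n)
    {E : Type*} [CommRing E] [Algebra K E] (z : ι → E) (c : E) :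
    aeval (fun i => c * z i) p = c ^ n * aeval z p := by
  classical
  rw [aeval_def, aeval_def, eval₂_eq, eval₂_eq, Finset.mul_sum]
  refine Finset.sum_congr rfl fun d hd => ?_
  have hdeg := hp (mem_support_iff.mp hd)
  have hsum : ∑ i ∈ d.support, d i = n := by
    rw [← hdeg, Finsupp.weight_apply, Finsupp.sum]
    simp
  simp only [mul_pow, Finset.prod_mul_distrib]
  rw [Finset.prod_pow_eq_pow_sum, hsum]
  ring

/-- The homogenisation of `g` in degree `g.totalDegree` with respect to the variable `j`. -/
def homog (j : ι) (g : MvPolynomial ι K) : MvPolynomial ι K :=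
  ∑ n ∈ Finset.range (g.totalDegree + 1), homogeneousComponent n g * X j ^ (g.totalDegree - n)

theorem homog_isHomogeneous (j : ι) (g : MvPolynomial ι K) :
    (homog j g).IsHomogeneous g.totalDegree := by
  unfold homog
  refine IsHomogeneous.sum _ _ _ fun n hn => ?_
  have hn' : n ≤ g.totalDegree := Nat.lt_succ_iff.mp (Finset.mem_range.mp hn)
  have h := (homogeneousComponent_isHomogeneous n g).mul
    ((isHomogeneous_X K j).pow (g.totalDegree - n))
  have e : n + 1 * (g.totalDegree - n) = g.totalDegree := by omega
  rwa [e] at h

theorem aeval_homog {E : Type*} [Field E] [Algebra K E] (j : ι) (g : MvPolynomial ι K)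
    (z : ι → E) (hz : z j ≠ 0) :
    aeval z (homog j g) = z j ^ g.totalDegree * aeval (fun i => z i / z j) g := by
  have key : aeval (fun i => z i / z j) g =
      ∑ n ∈ Finset.range (g.totalDegree + 1),
        aeval (fun i => z i / z j) (homogeneousComponent n g) := by
    conv_lhs => rw [← sum_homogeneousComponent g]
    rw [map_sum]
  rw [key]
  unfold homog
  rw [map_sum, Finset.mul_sum]
  refine Finset.sum_congr rfl fun n hn => ?_
  have hn' : n ≤ g.totalDegree := Nat.lt_succ_iff.mp (Finset.mem_range.mp hn)
  have hz' : (fun i => z j * (z i / z j)) = z := funext fun i => by field_simp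
  have h1 : aeval z (homogeneousComponent n g) =
      z j ^ n * aeval (fun i => z i / z j) (homogeneousComponent n g) := by
    rw [← aeval_mul_of_isHomogeneous (homogeneousComponent_isHomogeneous n g), hz']
  rw [map_mul, map_pow, aeval_X, h1]
  have e : z j ^ g.totalDegree = z j ^ n * z j ^ (g.totalDegree - n) := by
    rw [← pow_add]; congr 1; omega
  rw [e]
  ring

section Cone

variable {x : ι → F} {y : ι → K}

theorem OnCone.ne_zero (hy : OnCone x y) {j : ι} (hj : y j ≠ 0) : x j ≠ 0 := by
  intro h
  apply hj
  have := hy 1 (X j) (isHomogeneous_X K j) (by simpa using h)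
  simpa using this

/-- Dehomogenisation: an affine relation of the `x i / x j` kills `y i / y j`. -/
theorem OnCone.eval_div_eq_zero (hy : OnCone x y) {j : ι} (hj : y j ≠ 0)
    (g : MvPolynomial ι K) (hg : aeval (fun i => x i / x j) g = 0) :
    eval (fun i => y i / y j) g = 0 := by
  have hxj := hy.ne_zero hj
  have h1 : aeval x (homog j g) = 0 := by
    rw [aeval_homog j g x hxj, hg, mul_zero]
  have h2 := hy _ _ (homog_isHomogeneous j g) h1
  have h3 : aeval y (homog j g) = y j ^ g.totalDegree * aeval (fun i => y i / y j) g :=
    aeval_homog (E := K) j g y hj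
  rw [← aeval_eq_eval] at h2
  have h4 : (aeval y) (homog j g) = 0 := h2
  rw [h3] at h4
  rcases mul_eq_zero.mp h4 with h | h
  · exact absurd h (pow_ne_zero _ hj)
  · rw [← aeval_eq_eval]; exact h

/-- **G1, valuation-ring form.**  A point of the cone with `y j ≠ 0` is the centre of a valuation
subring of `F` containing `K`. -/
theorem exists_valuationSubring_of_onCone (hy : OnCone x y) {j : ι} (hj : y j ≠ 0) :
    ∃ B : ValuationSubring F, (∀ a : K, algebraMap K F a ∈ B) ∧
      ∀ i, x i / x j - algebraMap K F (y i / y j) ∈ B.nonunits := by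
  classical
  set ψ : MvPolynomial ι K →+* F :=
    (aeval (fun i => x i / x j) : MvPolynomial ι K →ₐ[K] F).toRingHom with hψ
  set ev : MvPolynomial ι K →+* K := eval (fun i => y i / y j) with hev
  have hker : RingHom.ker ψ ≤ RingHom.ker ev := fun g hg =>
    hy.eval_div_eq_zero hj g hg
  set ψ' : MvPolynomial ι K →+* ψ.range := ψ.rangeRestrict with hψ'
  have hsurj : Function.Surjective ψ' := ψ.rangeRestrict_surjective
  set I : Ideal ψ.range := Ideal.map ψ' (RingHom.ker ev) with hI
  have hItop : I ≠ ⊤ := by
    intro h
    have h1 : Ideal.comap ψ' I = ⊤ := by rw [h]; exact Ideal.comap_top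
    rw [hI, Ideal.comap_map_of_surjective ψ' hsurj] at h1
    have hle : Ideal.comap ψ' ⊥ ≤ RingHom.ker ev := by
      intro g hg
      apply hker
      rw [Ideal.mem_comap, Ideal.mem_bot] at hg
      rw [RingHom.mem_ker]
      have := congrArg Subtype.val hg
      simpa [hψ'] using this
    rw [sup_eq_left.mpr hle] at h1
    have h2 : (1 : MvPolynomial ι K) ∈ RingHom.ker ev := by rw [h1]; trivial
    rw [RingHom.mem_ker, map_one] at h2
    exact one_ne_zero h2
  obtain ⟨B, hAB, hIB⟩ := Ideal.image_subset_nonunits_valuationSubring I hItop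
  refine ⟨B, fun a => hAB ⟨C a, by simp [hψ]⟩, fun i => ?_⟩
  apply hIB
  refine ⟨ψ' (X i - C (y i / y j)), Ideal.mem_map_of_mem _ ?_, ?_⟩
  · rw [RingHom.mem_ker, hev]; simp
  · simp [hψ', hψ]

end Cone

section Place

open Fermat.Agent.Lib.RR

variable {x : ι → F} {y : ι → K}

theorem eq_zero_of_mem_nonunits_top {e : F} (h : e ∈ (⊤ : ValuationSubring F).nonunits) : e = 0 := by
  by_contra hne
  have h1 : (⊤ : ValuationSubring F).valuation e < 1 :=
    (ValuationSubring.mem_nonunits_iff (⊤ : ValuationSubring F)).mp h
  have hinv : e⁻¹ ∈ (⊤ : ValuationSubring F) := ValuationSubring.mem_top _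
  have h2 : (⊤ : ValuationSubring F).valuation e⁻¹ ≤ 1 :=
    ((⊤ : ValuationSubring F).valuation_le_one_iff _).mpr hinv
  rw [map_inv₀] at h2
  have hv0 : (⊤ : ValuationSubring F).valuation e ≠ 0 := (Valuation.ne_zero_iff _).mpr hne
  have h3 : 1 ≤ (⊤ : ValuationSubring F).valuation e := (inv_le_one₀ (zero_lt_iff.mpr hv0)).mp h2
  exact absurd h1 (not_lt.mpr h3)

theorem finiteDimensional_of_ff1 [FF1 K F] :
    ∀ t : F, Transcendental K t → FiniteDimensional (IntermediateField.adjoin K {t}) F := by
  obtain ⟨u, hu, hfin⟩ := FF1.exists_finite (K := K) (F := F)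
  intro t ht
  exact Fermat.Agent.S24.FF.finiteDimensional_adjoin_of_transcendental hu ht

/-- **G1: points of the cone are places.**  If `y` is killed by all homogeneous relations of the
`x i` and `y j ≠ 0`, then there is a place `P` of `F / K` with
`x i / x j ≡ y i / y j  mod 𝔪_P` for all `i` (in particular all `x i / x j` are regular at `P`). -/
theorem exists_place_of_onCone [FF1 K F] (hy : OnCone x y) {j : ι} (hj : y j ≠ 0) :
    ∃ P : Place K F,
      ∀ i, x i / x j - algebraMap K F (y i / y j) ∈ P.toValuationSubring.nonunits := by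
  obtain ⟨B, hK, hB⟩ := exists_valuationSubring_of_onCone hy hj
  by_cases hB' : B = ⊤
  · obtain ⟨P⟩ := FF1.nonempty_place (K := K) (F := F)
    refine ⟨P, fun i => ?_⟩
    have h0 : x i / x j - algebraMap K F (y i / y j) = 0 :=
      eq_zero_of_mem_nonunits_top (hB' ▸ hB i)
    rw [h0]
    exact (ValuationSubring.mem_nonunits_iff _).mpr (by simp)
  · exact ⟨⟨B, hK, hB', H383.isPrincipalIdealRing_of_finite B hK finiteDimensional_of_ff1⟩, hB⟩

/-- `G1` in terms of orders. -/
theorem exists_place_of_onCone_ord [FF1 K F] (hy : OnCone x y) {j : ι} (hj : y j ≠ 0) :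
    ∃ P : Place K F, ∀ i, 0 ≤ P.ord (x i / x j) ∧
      (x i / x j - algebraMap K F (y i / y j) = 0 ∨
        0 < P.ord (x i / x j - algebraMap K F (y i / y j))) := by
  obtain ⟨P, hP⟩ := exists_place_of_onCone hy hj
  refine ⟨P, fun i => ?_⟩
  have hmem : x i / x j - algebraMap K F (y i / y j) ∈ P.toValuationSubring :=
    ValuationSubring.nonunits_le (hP i)
  have hmem' : x i / x j ∈ P.toValuationSubring := by
    have := P.toValuationSubring.add_mem _ _ hmem (P.algebraMap_mem' (y i / y j))
    simpa using this
  refine ⟨ord_nonneg_of_mem P hmem', ?_⟩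
  have h1 : (⟨_, hmem⟩ : P.toValuationSubring) ∈
      IsLocalRing.maximalIdeal P.toValuationSubring :=
    ValuationSubring.coe_mem_nonunits_iff.mp (hP i)
  exact (mem_maximalIdeal_iff P _).mp h1

/-- For every place and every nonzero family there is an index `j` with `x j ≠ 0` such that all
`x i / x j` are regular at the place (`j` = an index of minimal order). -/
theorem exists_regular_index [Finite ι] (P : Place K F) (hx : x ≠ 0) :
    ∃ j, x j ≠ 0 ∧ ∀ i, x i / x j ∈ P.toValuationSubring := by
  classical
  have hne : ∃ i, x i ≠ 0 := by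
    by_contra h
    exact hx (funext fun i => by
      by_contra hi
      exact h ⟨i, hi⟩)
  have hfin : {i | x i ≠ 0}.Finite := Set.toFinite _
  obtain ⟨j, hj, hmin⟩ := Set.exists_min_image {i | x i ≠ 0} (fun i => P.ord (x i)) hfin hne
  refine ⟨j, hj, fun i => ?_⟩
  by_cases hi : x i = 0
  · rw [hi, zero_div]; exact P.toValuationSubring.zero_mem
  · apply mem_of_ord_nonneg
    rw [div_eq_mul_inv, P.ord_mul hi (inv_ne_zero hj), P.ord_inv]
    have := hmin i hi
    omega

/-- **Converse of G1**: the values at a place form a point of the cone. -/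
theorem onCone_of_place (P : Place K F) {j : ι} {c : ι → K}
    (h : ∀ i, x i / x j - algebraMap K F (c i) ∈ P.toValuationSubring.nonunits) :
    OnCone x c := by
  intro n p hp hpx
  have hmem : ∀ i, x i / x j ∈ P.toValuationSubring := fun i => by
    have := P.toValuationSubring.add_mem _ _ (ValuationSubring.nonunits_le (h i))
      (P.algebraMap_mem' (c i))
    simpa using this
  -- the point with coordinates in the valuation ring
  set w : ι → P.toValuationSubring := fun i => ⟨x i / x j, hmem i⟩ with hw
  have h1 : aeval (fun i => x i / x j) p = 0 := by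
    have hz : (fun i => x i / x j) = fun i => (x j)⁻¹ * x i := funext fun i => by
      rw [div_eq_mul_inv, mul_comm]
    rw [hz, aeval_mul_of_isHomogeneous hp, hpx, mul_zero]
  have h2 : aeval w p = 0 := by
    apply Subtype.ext
    have : ((aeval w p : P.toValuationSubring) : F) = aeval (fun i => x i / x j) p :=
      (MvPolynomial.aeval_algebraMap_apply (A := P.toValuationSubring) (B := F) w p).symm
    rw [this, h1]
    rfl
  have h3 : ∀ i, IsLocalRing.residue P.toValuationSubring (w i) =
      algebraMap K P.ResidueField (c i) := by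
    intro i
    have hmem' : w i - algebraMap K P.toValuationSubring (c i) ∈
        IsLocalRing.maximalIdeal P.toValuationSubring := by
      apply ValuationSubring.coe_mem_nonunits_iff.mp
      exact h i
    rw [← IsLocalRing.residue_eq_zero_iff, map_sub, sub_eq_zero] at hmem'
    rw [hmem']
    rfl
  have h4 : aeval (fun i => algebraMap K P.ResidueField (c i)) p = 0 := by
    have := congrArg (IsLocalRing.residue P.toValuationSubring) h2
    rw [map_zero] at this
    rw [← this]
    have hcomp := MvPolynomial.aeval_algebraMap_apply (A := P.toValuationSubring)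
      (B := P.ResidueField) w p
    rw [← funext h3]
    exact hcomp
  have h5 : aeval (fun i => algebraMap K P.ResidueField (c i)) p =
      algebraMap K P.ResidueField (eval c p) := by
    rw [← aeval_eq_eval]
    exact (MvPolynomial.aeval_algebraMap_apply (A := K) (B := P.ResidueField) c p)
  rw [h5] at h4
  exact (map_eq_zero (algebraMap K P.ResidueField)).mp h4

end Place

end Fermat.Agent.S17.H440
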