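import Fermat.Agent.S37.H100.EvPlace
import Fermat.Agent.Lib.RR.Riemann

/-!
# S17 / tower H (helper440): graded evaluation at a place

`F / K` with `FF1 K F`, `∞ = vinf` a place.  For every place `P` and every degree `d` we define the
`K`-linear **graded evaluation**

  `gev vinf P d : F → K`,   `f ↦ (f · w_P ^ d)(P)`,

where `w_P` is a local equation of `∞` at `P` (`w_P = 1` for `P ≠ ∞`, a fixed uniformiser at `∞`
for `P = ∞`).  On `L(d ∞)` it is the honest value `f(P)` for `P ≠ ∞` and the leading coefficient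
for `P = ∞`.  It is

* `K`-linear on `L(d ∞)` (`gev_add`, `gev_smul`, `gev_sum`),
* multiplicative: `gev (d + e) (f g) = gev d f * gev e g` for `f ∈ L(d ∞)`, `g ∈ L(e ∞)`
  (`gev_mul`), `gev 0 1 = 1`, `gev_pow`, `gev_prod`,
* its kernel on `L(d ∞)` is `L(d ∞ - P)` (`gev_eq_zero_iff`),
* compatible with polynomials: for `x i ∈ L(m ∞)` and `p` homogeneous of degree `k`,
  `eval (fun i => gev P m (x i)) p = gev P (k * m) (aeval x p)` (`eval_gev`).
-/

set_option autoImplicit false

noncomputable section

open AlgebraicCurve MvPolynomial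

namespace Fermat.Agent.S17.H440

open Fermat.Agent.Lib.RR Fermat.Agent.S37.H100

variable {K F : Type*} [Field K] [Field F] [Algebra K F]

section LocEq

open Classical in
/-- A local equation of `∞ = vinf` at `P`: a fixed uniformiser at `∞` if `P = ∞`, and `1`
otherwise. -/
def locEq (vinf P : Place K F) : F :=
  if P = vinf then Classical.choose (exists_ord_eq_one vinf) else 1

theorem ord_locEq (vinf P : Place K F) : P.ord (locEq vinf P) = prim vinf P := by
  classical
  unfold locEq prim
  by_cases h : P = vinf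
  · subst h
    rw [if_pos rfl, Finsupp.single_eq_same]
    exact Classical.choose_spec (exists_ord_eq_one P)
  · rw [if_neg h, Finsupp.single_apply, if_neg (Ne.symm h), P.ord_one]

theorem locEq_ne_zero (vinf P : Place K F) : locEq vinf P ≠ 0 := by
  classical
  unfold locEq
  by_cases h : P = vinf
  · rw [if_pos h]
    intro h0
    have := Classical.choose_spec (exists_ord_eq_one vinf)
    rw [h0, Place.ord_zero] at this
    exact zero_ne_one this
  · rw [if_neg h]; exact one_ne_zero

theorem ord_locEq_pow (vinf P : Place K F) (d : ℕ) :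
    P.ord (locEq vinf P ^ d) = d * prim vinf P := by
  rw [ord_pow, ord_locEq]

theorem locEq_mem (vinf P : Place K F) : locEq vinf P ∈ P.toValuationSubring := by
  apply mem_of_ord_nonneg
  rw [ord_locEq]
  unfold prim
  classical
  rw [Finsupp.single_apply]
  split_ifs <;> simp

/-- `f ∈ L(d ∞)` is regular at `P` after multiplication by `w_P ^ d`. -/
theorem mul_locEq_pow_mem (vinf P : Place K F) {d : ℕ} {f : F}
    (hf : f ∈ riemannRochSpace (d • prim vinf)) :
    f * locEq vinf P ^ d ∈ P.toValuationSubring := by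
  by_cases h0 : f = 0
  · rw [h0, zero_mul]; exact P.toValuationSubring.zero_mem
  apply mem_of_ord_nonneg
  rw [P.ord_mul h0 (pow_ne_zero _ (locEq_ne_zero vinf P)), ord_locEq_pow]
  rcases (mem_riemannRochSpace_iff.mp hf) P with h | h
  · exact absurd h h0
  · simp only [Finsupp.smul_apply, nsmul_eq_mul] at h
    linarith

variable (vinf : Place K F)

/-- products of elements of `L(d ∞)`, `L(e ∞)` lie in `L((d+e) ∞)` -/
theorem mul_mem_L {d e : ℕ} {f g : F} (hf : f ∈ riemannRochSpace (d • prim vinf))
    (hg : g ∈ riemannRochSpace (e • prim vinf)) :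
    f * g ∈ riemannRochSpace ((d + e) • prim vinf) := by
  rw [mem_riemannRochSpace_iff]
  intro v
  by_cases hf0 : f = 0
  · left; rw [hf0, zero_mul]
  by_cases hg0 : g = 0
  · left; rw [hg0, mul_zero]
  right
  rw [v.ord_mul hf0 hg0]
  rcases (mem_riemannRochSpace_iff.mp hf) v with h | h
  · exact absurd h hf0
  rcases (mem_riemannRochSpace_iff.mp hg) v with h' | h'
  · exact absurd h' hg0
  simp only [Finsupp.smul_apply, nsmul_eq_mul, Nat.cast_add] at h h' ⊢
  linarith

theorem one_mem_L : (1 : F) ∈ riemannRochSpace ((0 : ℕ) • prim vinf) := by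
  rw [mem_riemannRochSpace_iff]
  intro v
  right
  simp [Place.ord_one]

theorem pow_mem_L {m : ℕ} {f : F} (hf : f ∈ riemannRochSpace (m • prim vinf)) (k : ℕ) :
    f ^ k ∈ riemannRochSpace ((k * m) • prim vinf) := by
  induction k with
  | zero => rw [pow_zero, Nat.zero_mul]; exact one_mem_L vinf
  | succ k ih =>
    rw [pow_succ, Nat.succ_mul]
    exact mul_mem_L vinf ih hf

end LocEq

section Gev

variable [FF1 K F]

open Classical in
/-- The graded evaluation `f ↦ (f · w_P ^ d)(P)` (junk value `0` if this is not regular). -/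
def gev (vinf P : Place K F) (d : ℕ) (f : F) : K :=
  if h : f * locEq vinf P ^ d ∈ P.toValuationSubring then
    evPlace P (FF1.deg_eq_one P) ⟨_, h⟩ else 0

variable (vinf P : Place K F)

theorem gev_of_mem {d : ℕ} {f : F} (h : f * locEq vinf P ^ d ∈ P.toValuationSubring) :
    gev vinf P d f = evPlace P (FF1.deg_eq_one P) ⟨_, h⟩ := by
  unfold gev
  rw [dif_pos h]

theorem gev_zero (d : ℕ) : gev vinf P d 0 = 0 := by
  have h : (0 : F) * locEq vinf P ^ d ∈ P.toValuationSubring := by
    rw [zero_mul]; exact P.toValuationSubring.zero_mem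
  rw [gev_of_mem vinf P h]
  have : (⟨_, h⟩ : P.toValuationSubring) = 0 := Subtype.ext (zero_mul _)
  rw [this, map_zero]

theorem gev_add {d : ℕ} {f g : F} (hf : f ∈ riemannRochSpace (d • prim vinf))
    (hg : g ∈ riemannRochSpace (d • prim vinf)) :
    gev vinf P d (f + g) = gev vinf P d f + gev vinf P d g := by
  have h1 := mul_locEq_pow_mem vinf P hf
  have h2 := mul_locEq_pow_mem vinf P hg
  have h3 := mul_locEq_pow_mem vinf P (Submodule.add_mem _ hf hg)
  rw [gev_of_mem vinf P h1, gev_of_mem vinf P h2, gev_of_mem vinf P h3, ← map_add]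
  congr 1
  exact Subtype.ext (add_mul _ _ _)

theorem gev_smul {d : ℕ} (c : K) {f : F} (hf : f ∈ riemannRochSpace (d • prim vinf)) :
    gev vinf P d (c • f) = c * gev vinf P d f := by
  have h1 := mul_locEq_pow_mem vinf P hf
  have h3 := mul_locEq_pow_mem vinf P (Submodule.smul_mem _ c hf)
  rw [gev_of_mem vinf P h1, gev_of_mem vinf P h3]
  have : (⟨_, h3⟩ : P.toValuationSubring) =
      algebraMap K P.toValuationSubring c * ⟨_, h1⟩ := by
    apply Subtype.ext
    show c • f * locEq vinf P ^ d = algebraMap K F c * (f * locEq vinf P ^ d)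
    rw [Algebra.smul_def, mul_assoc]
  rw [this, map_mul, evPlace_algebraMap]

theorem gev_sum {d : ℕ} {ι : Type*} (s : Finset ι) (f : ι → F)
    (hf : ∀ i ∈ s, f i ∈ riemannRochSpace (d • prim vinf)) :
    gev vinf P d (∑ i ∈ s, f i) = ∑ i ∈ s, gev vinf P d (f i) := by
  classical
  induction s using Finset.induction_on with
  | empty => simp [gev_zero]
  | insert a s ha ih =>
    rw [Finset.sum_insert ha, Finset.sum_insert ha,
      gev_add vinf P (hf a (Finset.mem_insert_self a s))
        (Submodule.sum_mem _ fun i hi => hf i (Finset.mem_insert_of_mem hi)),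
      ih fun i hi => hf i (Finset.mem_insert_of_mem hi)]

theorem gev_mul {d e : ℕ} {f g : F} (hf : f ∈ riemannRochSpace (d • prim vinf))
    (hg : g ∈ riemannRochSpace (e • prim vinf)) :
    gev vinf P (d + e) (f * g) = gev vinf P d f * gev vinf P e g := by
  have h1 := mul_locEq_pow_mem vinf P hf
  have h2 := mul_locEq_pow_mem vinf P hg
  have h3 : f * g * locEq vinf P ^ (d + e) ∈ P.toValuationSubring := by
    have := P.toValuationSubring.mul_mem _ _ h1 h2
    have e' : f * g * locEq vinf P ^ (d + e) =
        f * locEq vinf P ^ d * (g * locEq vinf P ^ e) := by rw [pow_add]; ring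
    rw [e']; exact this
  rw [gev_of_mem vinf P h1, gev_of_mem vinf P h2, gev_of_mem vinf P h3, ← map_mul]
  congr 1
  apply Subtype.ext
  show f * g * locEq vinf P ^ (d + e) = f * locEq vinf P ^ d * (g * locEq vinf P ^ e)
  rw [pow_add]; ring

theorem gev_one : gev vinf P 0 1 = 1 := by
  have h : (1 : F) * locEq vinf P ^ 0 ∈ P.toValuationSubring := by
    rw [pow_zero, mul_one]; exact P.toValuationSubring.one_mem
  rw [gev_of_mem vinf P h]
  have : (⟨_, h⟩ : P.toValuationSubring) = 1 := Subtype.ext (by simp)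
  rw [this, map_one]

theorem gev_pow {m : ℕ} {f : F} (hf : f ∈ riemannRochSpace (m • prim vinf)) (k : ℕ) :
    gev vinf P (k * m) (f ^ k) = gev vinf P m f ^ k := by
  induction k with
  | zero => rw [pow_zero, pow_zero, Nat.zero_mul]; exact gev_one vinf P
  | succ k ih =>
    rw [pow_succ, pow_succ, Nat.succ_mul, gev_mul vinf P (pow_mem_L vinf hf k) hf, ih]

/-- The kernel of the graded evaluation on `L(d ∞)`: the functions with a zero at `P`
(relative to `d ∞`). -/
theorem gev_eq_zero_iff {d : ℕ} {f : F} (hf : f ∈ riemannRochSpace (d • prim vinf))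
    (hf0 : f ≠ 0) :
    gev vinf P d f = 0 ↔ -((d : ℤ) * prim vinf P) < P.ord f := by
  have h1 := mul_locEq_pow_mem vinf P hf
  rw [gev_of_mem vinf P h1, evPlace_eq_zero_iff_ord]
  have hne : f * locEq vinf P ^ d ≠ 0 := mul_ne_zero hf0 (pow_ne_zero _ (locEq_ne_zero vinf P))
  show (f * locEq vinf P ^ d = 0 ∨ 0 < P.ord (f * locEq vinf P ^ d)) ↔ _
  rw [P.ord_mul hf0 (pow_ne_zero _ (locEq_ne_zero vinf P)), ord_locEq_pow]
  constructor
  · rintro (h | h)
    · exact absurd h hne
    · linarith
  · intro h; right; linarith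

section Poly

variable {ι : Type*} {m : ℕ} {x : ι → F}

omit [FF1 K F] in
theorem monomial_mem_L (hx : ∀ i, x i ∈ riemannRochSpace (m • prim vinf)) (s : Finset ι)
    (e : ι → ℕ) :
    ∏ i ∈ s, x i ^ e i ∈ riemannRochSpace (((∑ i ∈ s, e i) * m) • prim vinf) := by
  classical
  induction s using Finset.induction_on with
  | empty =>
    rw [Finset.prod_empty, Finset.sum_empty, Nat.zero_mul]
    exact one_mem_L vinf
  | insert a s ha ih =>
    rw [Finset.prod_insert ha, Finset.sum_insert ha, Nat.add_mul]
    exact mul_mem_L vinf (pow_mem_L vinf (hx a) (e a)) ih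

theorem gev_monomial (hx : ∀ i, x i ∈ riemannRochSpace (m • prim vinf)) (s : Finset ι)
    (e : ι → ℕ) :
    gev vinf P ((∑ i ∈ s, e i) * m) (∏ i ∈ s, x i ^ e i) =
      ∏ i ∈ s, gev vinf P m (x i) ^ e i := by
  classical
  induction s using Finset.induction_on with
  | empty =>
    rw [Finset.prod_empty, Finset.prod_empty, Finset.sum_empty, Nat.zero_mul]
    exact gev_one vinf P
  | insert a s ha ih =>
    rw [Finset.prod_insert ha, Finset.prod_insert ha, Finset.sum_insert ha, Nat.add_mul,
      gev_mul vinf P (pow_mem_L vinf (hx a) (e a)) (monomial_mem_L vinf hx s e),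
      gev_pow vinf P (hx a), ih]

omit [FF1 K F] in
/-- A homogeneous polynomial of degree `k` in functions of `L(m ∞)` lies in `L(k m ∞)`. -/
theorem aeval_mem_L (hx : ∀ i, x i ∈ riemannRochSpace (m • prim vinf))
    {p : MvPolynomial ι K} {k : ℕ} (hp : p.IsHomogeneous k) :
    aeval x p ∈ riemannRochSpace ((k * m) • prim vinf) := by
  classical
  rw [aeval_def, eval₂_eq]
  refine Submodule.sum_mem _ fun d hd => ?_
  have hdeg := hp (mem_support_iff.mp hd)
  have hsum : ∑ i ∈ d.support, d i = k := by
    rw [← hdeg, Finsupp.weight_apply, Finsupp.sum]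
    simp
  have h1 := monomial_mem_L vinf hx d.support (fun i => d i)
  rw [hsum] at h1
  have h2 := Submodule.smul_mem _ (coeff d p) h1
  rwa [Algebra.smul_def] at h2

/-- **Polynomials commute with the graded evaluation.** -/
theorem eval_gev (hx : ∀ i, x i ∈ riemannRochSpace (m • prim vinf))
    {p : MvPolynomial ι K} {k : ℕ} (hp : p.IsHomogeneous k) :
    eval (fun i => gev vinf P m (x i)) p = gev vinf P (k * m) (aeval x p) := by
  classical
  rw [aeval_def, eval₂_eq, eval_eq]
  have hsum : ∀ d ∈ p.support, ∑ i ∈ d.support, d i = k := by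
    intro d hd
    have hdeg := hp (mem_support_iff.mp hd)
    rw [← hdeg, Finsupp.weight_apply, Finsupp.sum]
    simp
  have hmem : ∀ d ∈ p.support, ∏ i ∈ d.support, x i ^ d i ∈
      riemannRochSpace ((k * m) • prim vinf) := by
    intro d hd
    have h1 := monomial_mem_L vinf hx d.support (fun i => d i)
    rwa [hsum d hd] at h1
  rw [gev_sum vinf P]
  · refine Finset.sum_congr rfl fun d hd => ?_
    have h1 := gev_monomial vinf P hx d.support (fun i => d i)
    rw [hsum d hd] at h1
    rw [← Algebra.smul_def, gev_smul vinf P _ (hmem d hd), h1]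
  · intro d hd
    rw [← Algebra.smul_def]
    exact Submodule.smul_mem _ _ (hmem d hd)

end Poly

section Quot

/-- If `f / g` is regular at `P` then `gev f = (f / g)(P) * gev g`. -/
theorem gev_eq_mul_of_div_mem {d : ℕ} {f g : F} (hg : g ∈ riemannRochSpace (d • prim vinf))
    (hg0 : g ≠ 0) (h : f / g ∈ P.toValuationSubring) :
    gev vinf P d f = evPlace P (FF1.deg_eq_one P) ⟨_, h⟩ * gev vinf P d g := by
  have h2 := mul_locEq_pow_mem vinf P hg
  have h1 : f * locEq vinf P ^ d ∈ P.toValuationSubring := by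
    have := P.toValuationSubring.mul_mem _ _ h h2
    have e : f / g * (g * locEq vinf P ^ d) = f * locEq vinf P ^ d := by
      field_simp
    rwa [e] at this
  rw [gev_of_mem vinf P h1, gev_of_mem vinf P h2, ← map_mul]
  congr 1
  apply Subtype.ext
  show f * locEq vinf P ^ d = f / g * (g * locEq vinf P ^ d)
  field_simp

/-- If `gev g ≠ 0` then `f / g` is regular at `P` for all `f ∈ L(d ∞)`. -/
theorem div_mem_of_gev_ne_zero {d : ℕ} {f g : F} (hf : f ∈ riemannRochSpace (d • prim vinf))
    (hg : g ∈ riemannRochSpace (d • prim vinf)) (hgev : gev vinf P d g ≠ 0) :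
    f / g ∈ P.toValuationSubring := by
  have hg0 : g ≠ 0 := by
    rintro rfl
    exact hgev (gev_zero vinf P d)
  by_cases hf0 : f = 0
  · rw [hf0, zero_div]; exact P.toValuationSubring.zero_mem
  have h1 : ¬ (-((d : ℤ) * prim vinf P) < P.ord g) := fun h =>
    hgev ((gev_eq_zero_iff vinf P hg hg0).mpr h)
  have h2 := (mem_riemannRochSpace_iff.mp hf P).resolve_left hf0
  rw [Finsupp.smul_apply, nsmul_eq_mul] at h2
  apply mem_of_ord_nonneg
  rw [div_eq_mul_inv, P.ord_mul hf0 (inv_ne_zero hg0), P.ord_inv]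
  omega

/-- The value of `f / g` at `P` is `gev f / gev g`. -/
theorem evPlace_div {d : ℕ} {f g : F} (hf : f ∈ riemannRochSpace (d • prim vinf))
    (hg : g ∈ riemannRochSpace (d • prim vinf)) (hgev : gev vinf P d g ≠ 0) :
    evPlace P (FF1.deg_eq_one P) ⟨_, div_mem_of_gev_ne_zero vinf P hf hg hgev⟩ =
      gev vinf P d f / gev vinf P d g := by
  have hg0 : g ≠ 0 := by
    rintro rfl
    exact hgev (gev_zero vinf P d)
  rw [eq_div_iff hgev]
  exact (gev_eq_mul_of_div_mem vinf P hg hg0 _).symm

/-- `f / g ≡ gev f / gev g` modulo the maximal ideal at `P`. -/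
theorem div_sub_mem_nonunits {d : ℕ} {f g : F} (hf : f ∈ riemannRochSpace (d • prim vinf))
    (hg : g ∈ riemannRochSpace (d • prim vinf)) (hgev : gev vinf P d g ≠ 0) :
    f / g - algebraMap K F (gev vinf P d f / gev vinf P d g) ∈
      P.toValuationSubring.nonunits := by
  have h := sub_algebraMap_evPlace_mem P (FF1.deg_eq_one P)
    ⟨_, div_mem_of_gev_ne_zero vinf P hf hg hgev⟩
  rw [evPlace_div vinf P hf hg hgev] at h
  exact ValuationSubring.coe_mem_nonunits_iff.mpr h

end Quot

end Gev

end Fermat.Agent.S17.H440
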