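import Fermat.Agent.S17.H617.HWallDefs
import Fermat.Agent.S17.H440.GradedEv
import Fermat.Agent.S17.H440.Cone
import Fermat.Agent.Lib.RR.H439.Pencil
import Fermat.Agent.Lib.RR.Adeles

/-!
# S17 / tower H (helper440): glue between `EmbData` and the graded evaluation maps

`E : EmbData K F` is the projective embedding datum of `HWallDefs` (a basis `x` of `L(m ∞)`,
`m ≥ 2g + 1`, and projectively characterised representatives `E.pt P`).  Here the abstract
representative `E.pt P` is identified with the honest graded values.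

* `gpt E P i = gev ∞ P m (x i)`: the graded coordinate vector of the place `P`;
* `dot_gpt`                 : `⟨a, gpt P⟩ = gev (Σ aᵢ xᵢ)`;
* `dot_gpt_eq_zero_iff`     : `⟨a, gpt P⟩ = 0 ↔ 0 < Z_a(P)`;
* `exists_Z_eq_zero`        : no base points, some hyperplane section misses `P`;
* `gpt_ne_zero`, `pt_ne_zero`;
* `ptScale`, `pt_eq_smul_gpt`: `E.pt P = ptScale E P • gpt E P`, `ptScale E P ≠ 0`;
* `eval_pt`                 : `eval (E.pt P) p = ptScale ^ k * gev (k m) (aeval x p)` for `p`
                              homogeneous of degree `k`;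
* `onCone_gpt`, `onCone_pt` : the points of the curve lie on the cone of `x`;
* `exists_pt_of_onCone`     : (G1 for `EmbData`) every nonzero point of the cone is `c • E.pt P`;
* `pt_injective`            : `E.pt P = c • E.pt Q` implies `P = Q`;
* `sub_mem_nonunits_of_pt`  : `x i / x j ≡ pt P i / pt P j mod 𝔪_P` if `pt P j ≠ 0`.
-/

set_option autoImplicit false

noncomputable section

open AlgebraicCurve MvPolynomial

namespace Fermat.Agent.S17.H440

open Fermat.Agent.Lib.RR Fermat.Agent.S37.H100 Fermat.Agent.S17.HWall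

variable {K F : Type*} [Field K] [Field F] [Algebra K F] [FF1 K F]

/-- The basis functions lie in `L(m ∞)`. -/
theorem x_mem (E : EmbData K F) (i : Fin (E.r + 1)) :
    E.x i ∈ riemannRochSpace (E.m • prim E.vinf) := by
  rw [← E.x_span]
  exact Submodule.subset_span ⟨i, rfl⟩

/-- Every element of `L(m ∞)` is a linear form in the basis. -/
theorem exists_lin_eq (E : EmbData K F) {f : F}
    (hf : f ∈ riemannRochSpace (E.m • prim E.vinf)) :
    ∃ a : Fin (E.r + 1) → K, lin E.x a = f := by
  rw [← E.x_span] at hf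
  obtain ⟨a, ha⟩ := (Submodule.mem_span_range_iff_exists_fun K).mp hf
  exact ⟨a, ha⟩

omit [FF1 K F] in
theorem smul_prim_apply (vinf P : Place K F) (m : ℕ) :
    (m • prim vinf : Divisor K F) P = (m : ℤ) * prim vinf P := by
  rw [Finsupp.smul_apply, nsmul_eq_mul]

/-- The graded coordinate vector of a place. -/
def gpt (E : EmbData K F) (P : Place K F) : Fin (E.r + 1) → K :=
  fun i => gev E.vinf P E.m (E.x i)

theorem dot_gpt (E : EmbData K F) (P : Place K F) (a : Fin (E.r + 1) → K) :
    dot a (gpt E P) = gev E.vinf P E.m (lin E.x a) := by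
  unfold lin
  rw [gev_sum E.vinf P Finset.univ _ fun i _ => Submodule.smul_mem _ _ (x_mem E i)]
  show ∑ i, a i * gpt E P i = _
  refine Finset.sum_congr rfl fun i _ => ?_
  rw [gev_smul E.vinf P _ (x_mem E i)]
  rfl

/-- The hyperplanes through the graded point of `P` are the hyperplane sections through `P`. -/
theorem dot_gpt_eq_zero_iff (E : EmbData K F) (P : Place K F) {a : Fin (E.r + 1) → K}
    (ha : a ≠ 0) : dot a (gpt E P) = 0 ↔ 0 < E.Z a P := by
  rw [dot_gpt, gev_eq_zero_iff E.vinf P (E.lin_mem a) (E.lin_ne_zero ha), E.Z_apply ha P,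
    smul_prim_apply]
  constructor <;> intro h <;> linarith

theorem two_genusFF_le (E : EmbData K F) :
    2 * (genusFF K F : ℤ) ≤ Divisor.degree (E.m • prim E.vinf) := by
  rw [genusFF_eq_genusR, map_nsmul]
  unfold prim
  rw [Divisor.degree_single, FF1.deg_eq_one]
  have := E.hm
  simp only [Nat.cast_one, mul_one, nsmul_eq_mul]
  omega

/-- **No base points**: for every place `P` some hyperplane section does not contain `P`. -/
theorem exists_Z_eq_zero (E : EmbData K F) (P : Place K F) :
    ∃ a : Fin (E.r + 1) → K, a ≠ 0 ∧ E.Z a P = 0 := by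
  obtain ⟨f, hf, hf0, hord⟩ := H439.exists_mem_L_ord_eq (two_genusFF_le E) P
  obtain ⟨a, ha⟩ := exists_lin_eq E hf
  have ha0 : a ≠ 0 := by
    rintro rfl
    apply hf0
    rw [← ha]
    simp [lin]
  refine ⟨a, ha0, ?_⟩
  rw [E.Z_apply ha0 P, ha, hord]
  ring

theorem gpt_ne_zero (E : EmbData K F) (P : Place K F) : gpt E P ≠ 0 := by
  obtain ⟨a, ha0, ha⟩ := exists_Z_eq_zero E P
  intro h
  have h1 : dot a (gpt E P) = 0 := by rw [h]; simp [dot]
  have := (dot_gpt_eq_zero_iff E P ha0).mp h1
  omega

theorem pt_ne_zero (E : EmbData K F) (P : Place K F) : E.pt P ≠ 0 := by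
  obtain ⟨a, ha0, ha⟩ := exists_Z_eq_zero E P
  intro h
  have h1 : dot a (E.pt P) = 0 := by rw [h]; simp [dot]
  have h2 : 0 < E.Z a P := (E.pt_spec P a ha0).mp h1
  omega

/-- Two vectors with the same orthogonal hyperplanes are proportional. -/
theorem exists_smul_eq_of_dot_iff {n : ℕ} {u w : Fin n → K} (hu : u ≠ 0) (hw : w ≠ 0)
    (h : ∀ a : Fin n → K, a ≠ 0 → (dot a u = 0 ↔ dot a w = 0)) :
    ∃ c : K, c ≠ 0 ∧ u = c • w := by
  classical
  obtain ⟨j, hj⟩ : ∃ j, w j ≠ 0 := by
    by_contra hcon
    push Not at hcon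
    exact hw (funext hcon)
  have key : ∀ i, w j * u i = w i * u j := by
    intro i
    by_cases hij : i = j
    · subst hij; rfl
    set a : Fin n → K := fun l => if l = i then w j else if l = j then -w i else 0 with ha
    have ha0 : a ≠ 0 := by
      intro h0
      have := congrFun h0 i
      simp only [ha, if_true, Pi.zero_apply] at this
      exact hj this
    have hdot : ∀ z : Fin n → K, dot a z = w j * z i - w i * z j := by
      intro z
      show ∑ l, a l * z l = _
      rw [Finset.sum_eq_add_of_mem i j (Finset.mem_univ _) (Finset.mem_univ _) hij]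
      · simp only [ha, if_true]
        rw [if_neg (Ne.symm hij)]
        ring
      · intro l _ hl
        simp only [ha]
        rw [if_neg hl.1, if_neg hl.2, zero_mul]
    have h1 : dot a w = 0 := by rw [hdot]; ring
    have h2 := (h a ha0).mpr h1
    rw [hdot] at h2
    linear_combination h2
  have huj : u j ≠ 0 := by
    intro h0
    apply hu
    funext i
    have := key i
    rw [h0, mul_zero] at this
    rcases mul_eq_zero.mp this with h' | h'
    · exact absurd h' hj
    · exact h'
  refine ⟨u j / w j, div_ne_zero huj hj, funext fun i => ?_⟩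
  rw [Pi.smul_apply, smul_eq_mul]
  field_simp
  linear_combination key i

theorem exists_pt_eq_smul_gpt (E : EmbData K F) (P : Place K F) :
    ∃ c : K, c ≠ 0 ∧ E.pt P = c • gpt E P :=
  exists_smul_eq_of_dot_iff (pt_ne_zero E P) (gpt_ne_zero E P) fun a ha =>
    (E.pt_spec P a ha).trans (dot_gpt_eq_zero_iff E P ha).symm

/-- The scalar with `E.pt P = ptScale E P • gpt E P`. -/
def ptScale (E : EmbData K F) (P : Place K F) : K := (exists_pt_eq_smul_gpt E P).choose

theorem ptScale_ne_zero (E : EmbData K F) (P : Place K F) : ptScale E P ≠ 0 :=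
  (exists_pt_eq_smul_gpt E P).choose_spec.1

theorem pt_eq_smul_gpt (E : EmbData K F) (P : Place K F) :
    E.pt P = ptScale E P • gpt E P :=
  (exists_pt_eq_smul_gpt E P).choose_spec.2

theorem pt_apply (E : EmbData K F) (P : Place K F) (i : Fin (E.r + 1)) :
    E.pt P i = ptScale E P * gev E.vinf P E.m (E.x i) := by
  rw [pt_eq_smul_gpt]
  rfl

/-- Homogeneous polynomials at a scaled point. -/
theorem eval_smul_of_isHomogeneous {ι : Type*} {p : MvPolynomial ι K} {k : ℕ}
    (hp : p.IsHomogeneous k) (c : K) (z : ι → K) :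
    eval (c • z) p = c ^ k * eval z p := by
  have := aeval_mul_of_isHomogeneous hp z c
  rw [aeval_eq_eval, aeval_eq_eval] at this
  exact this

/-- **Polynomials at the point of a place**: for `p` homogeneous of degree `k`,
`p (E.pt P) = ptScale ^ k * gev (k m) (p (x))`. -/
theorem eval_pt (E : EmbData K F) (P : Place K F) {p : MvPolynomial (Fin (E.r + 1)) K} {k : ℕ}
    (hp : p.IsHomogeneous k) :
    eval (E.pt P) p = ptScale E P ^ k * gev E.vinf P (k * E.m) (aeval E.x p) := by
  rw [pt_eq_smul_gpt, eval_smul_of_isHomogeneous hp, ← eval_gev E.vinf P (x_mem E) hp]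
  rfl

theorem eval_gpt (E : EmbData K F) (P : Place K F) {p : MvPolynomial (Fin (E.r + 1)) K} {k : ℕ}
    (hp : p.IsHomogeneous k) :
    eval (gpt E P) p = gev E.vinf P (k * E.m) (aeval E.x p) :=
  eval_gev E.vinf P (x_mem E) hp

/-- The graded point of a place lies on the cone. -/
theorem onCone_gpt (E : EmbData K F) (P : Place K F) : OnCone E.x (gpt E P) := by
  intro n p hp hpx
  rw [eval_gpt E P hp, hpx, gev_zero]

/-- The point of a place lies on the cone. -/
theorem onCone_pt (E : EmbData K F) (P : Place K F) : OnCone E.x (E.pt P) := by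
  intro n p hp hpx
  rw [eval_pt E P hp, hpx, gev_zero, mul_zero]

/-- The coordinate functions are congruent to the coordinates of the point:
`x i / x j ≡ pt P i / pt P j  mod 𝔪_P` whenever `pt P j ≠ 0`. -/
theorem sub_mem_nonunits_of_pt (E : EmbData K F) (P : Place K F) {j : Fin (E.r + 1)}
    (hj : E.pt P j ≠ 0) (i : Fin (E.r + 1)) :
    E.x i / E.x j - algebraMap K F (E.pt P i / E.pt P j) ∈ P.toValuationSubring.nonunits := by
  have hc := ptScale_ne_zero E P
  have hgj : gev E.vinf P E.m (E.x j) ≠ 0 := by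
    intro h0
    apply hj
    rw [pt_apply, h0, mul_zero]
  have h := div_sub_mem_nonunits E.vinf P (x_mem E i) (x_mem E j) hgj
  have e : E.pt P i / E.pt P j = gev E.vinf P E.m (E.x i) / gev E.vinf P E.m (E.x j) := by
    rw [pt_apply, pt_apply, mul_div_mul_left _ _ hc]
  rw [e]
  exact h

/-- **G1 for `EmbData`**: every nonzero point of the cone of `x` is the point of a place. -/
theorem exists_pt_of_onCone (E : EmbData K F) {y : Fin (E.r + 1) → K} (hy : OnCone E.x y)
    (hy0 : y ≠ 0) : ∃ (P : Place K F) (c : K), c ≠ 0 ∧ y = c • E.pt P := by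
  obtain ⟨j, hj⟩ : ∃ j, y j ≠ 0 := by
    by_contra hcon
    push Not at hcon
    exact hy0 (funext hcon)
  have hxj : E.x j ≠ 0 := hy.ne_zero hj
  obtain ⟨P, hP⟩ := exists_place_of_onCone hy hj
  have hmem : ∀ i, E.x i / E.x j ∈ P.toValuationSubring := fun i => by
    have := P.toValuationSubring.add_mem _ _ (ValuationSubring.nonunits_le (hP i))
      (P.algebraMap_mem' (y i / y j))
    simpa using this
  have hev : ∀ i, evPlace P (FF1.deg_eq_one P) ⟨_, hmem i⟩ = y i / y j := by
    intro i
    have h1 : (⟨_, hmem i⟩ : P.toValuationSubring) - algebraMap K P.toValuationSubring (y i / y j)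
        ∈ IsLocalRing.maximalIdeal P.toValuationSubring :=
      ValuationSubring.coe_mem_nonunits_iff.mp (hP i)
    rw [← evPlace_eq_zero_iff P (FF1.deg_eq_one P), map_sub, evPlace_algebraMap,
      sub_eq_zero] at h1
    exact h1
  have hg : ∀ i, gpt E P i = y i / y j * gpt E P j := by
    intro i
    show gev E.vinf P E.m (E.x i) = _
    rw [gev_eq_mul_of_div_mem E.vinf P (x_mem E j) hxj (hmem i), hev i]
    rfl
  have hgj : gpt E P j ≠ 0 := by
    intro h0
    apply gpt_ne_zero E P
    funext i
    rw [hg i, h0, mul_zero]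
    rfl
  have hc := ptScale_ne_zero E P
  refine ⟨P, y j / gpt E P j / ptScale E P, div_ne_zero (div_ne_zero hj hgj) hc, ?_⟩
  funext i
  rw [Pi.smul_apply, smul_eq_mul, pt_eq_smul_gpt, Pi.smul_apply, smul_eq_mul, hg i]
  field_simp

/-- **The embedding is injective**: proportional points come from the same place. -/
theorem pt_injective (E : EmbData K F) {P Q : Place K F} {c : K}
    (h : E.pt P = c • E.pt Q) : P = Q := by
  by_contra hPQ
  -- a hyperplane section through `Q` missing `P`
  have hdeg : 2 * (genusFF K F : ℤ) ≤ Divisor.degree (E.m • prim E.vinf - prim Q) := by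
    have h1 := two_genusFF_le E
    rw [genusFF_eq_genusR] at h1 ⊢
    have h2 : Divisor.degree (E.m • prim E.vinf) = E.m := by
      rw [map_nsmul]
      unfold prim
      rw [Divisor.degree_single, FF1.deg_eq_one]
      simp
    rw [map_sub, h2]
    have h3 : Divisor.degree (prim Q) = 1 := by
      unfold prim
      rw [Divisor.degree_single, FF1.deg_eq_one]
      simp
    rw [h3]
    have := E.hm
    omega
  obtain ⟨f, hf, hf0, hord⟩ := H439.exists_mem_L_ord_eq hdeg P
  have hf' : f ∈ riemannRochSpace (E.m • prim E.vinf) :=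
    L_mono (H439.sub_prim_le _ Q) hf
  obtain ⟨a, ha⟩ := exists_lin_eq E hf'
  have ha0 : a ≠ 0 := by
    rintro rfl
    apply hf0
    rw [← ha]
    simp [lin]
  have hZP : E.Z a P = 0 := by
    rw [E.Z_apply ha0 P, ha, hord]
    simp only [Finsupp.coe_sub, Pi.sub_apply]
    rw [prim_apply_of_ne hPQ]
    ring
  have hZQ : 0 < E.Z a Q := by
    rw [E.Z_apply ha0 Q, ha]
    have := (mem_riemannRochSpace_iff.mp hf Q).resolve_left hf0
    simp only [Finsupp.coe_sub, Pi.sub_apply, prim_apply_self] at this
    omega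
  have h1 : dot a (E.pt Q) = 0 := (E.pt_spec Q a ha0).mpr hZQ
  have h2 : dot a (E.pt P) = 0 := by
    rw [h]
    show dotProduct a (c • E.pt Q) = 0
    rw [dotProduct_smul]
    show c • dot a (E.pt Q) = 0
    rw [h1, smul_zero]
  have h3 : 0 < E.Z a P := (E.pt_spec P a ha0).mp h2
  omega

end Fermat.Agent.S17.H440
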