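import Fermat.Agent.S17.H710.Wall.Defs
import Fermat.Agent.S17.H440.EmbGlue

/-!
# S17 / tower H, wall leaves G-PT and G-CONE (helper440)

* `ptStatement E   : Wall.PtStatement E`   (`pt P ≠ 0`, `pt P` on the cone, `pt P ∧ pt Q ≠ 0` for
  `P ≠ Q`, `pt P ∧ tn P ≠ 0`);
* `coneStatement E : Wall.ConeStatement E` (every nonzero point of the cone is `c • pt P`).

No hypothesis beyond `[FF1 K F]` is needed.
-/

set_option autoImplicit false

noncomputable section

open AlgebraicCurve MvPolynomial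

namespace Fermat.Agent.S17.H440

open Fermat.Agent.Lib.RR Fermat.Agent.S17.HWall

variable {K F : Type*} [Field K] [Field F] [Algebra K F] [FF1 K F]

/-- Vectors with vanishing wedge are proportional. -/
theorem exists_smul_eq_of_wedge_eq_zero {n : ℕ} {u v : Fin n → K} (hu : u ≠ 0)
    (h : wedge u v = 0) : ∃ c : K, v = c • u := by
  obtain ⟨j, hj⟩ : ∃ j, u j ≠ 0 := by
    by_contra hcon
    push Not at hcon
    exact hu (funext hcon)
  refine ⟨v j / u j, funext fun i => ?_⟩
  have h1 : u j * v i - u i * v j = 0 := congrFun h (j, i)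
  rw [Pi.smul_apply, smul_eq_mul]
  field_simp
  linear_combination h1

/-- Some hyperplane section contains `P` with multiplicity exactly one. -/
theorem exists_Z_eq_one (E : EmbData K F) (P : Place K F) :
    ∃ a : Fin (E.r + 1) → K, a ≠ 0 ∧ E.Z a P = 1 := by
  have hdeg : 2 * (genusFF K F : ℤ) ≤ Divisor.degree (E.m • prim E.vinf - prim P) := by
    rw [genusFF_eq_genusR]
    have h2 : Divisor.degree (E.m • prim E.vinf) = E.m := by
      rw [map_nsmul]
      unfold prim
      rw [Divisor.degree_single, FF1.deg_eq_one]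
      simp
    have h3 : Divisor.degree (prim P) = 1 := by
      unfold prim
      rw [Divisor.degree_single, FF1.deg_eq_one]
      simp
    rw [map_sub, h2, h3]
    have := E.hm
    omega
  obtain ⟨f, hf, hf0, hord⟩ := H439.exists_mem_L_ord_eq hdeg P
  have hf' : f ∈ riemannRochSpace (E.m • prim E.vinf) := L_mono (H439.sub_prim_le _ P) hf
  obtain ⟨a, ha⟩ := exists_lin_eq E hf'
  have ha0 : a ≠ 0 := by
    rintro rfl
    apply hf0
    rw [← ha]
    simp [lin]
  refine ⟨a, ha0, ?_⟩
  rw [E.Z_apply ha0 P, ha, hord]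
  simp only [Finsupp.coe_sub, Pi.sub_apply, prim_apply_self]
  ring

/-- `pt P ∧ pt Q ≠ 0` for `P ≠ Q`. -/
theorem wedge_pt_pt_ne_zero (E : EmbData K F) {P Q : Place K F} (hPQ : P ≠ Q) :
    wedge (E.pt P) (E.pt Q) ≠ 0 := by
  intro h
  obtain ⟨c, hc⟩ := exists_smul_eq_of_wedge_eq_zero (pt_ne_zero E P) h
  exact hPQ (pt_injective E hc).symm

/-- `pt P ∧ tn P ≠ 0`: the tangent line is a line. -/
theorem wedge_pt_tn_ne_zero (E : EmbData K F) (P : Place K F) :
    wedge (E.pt P) (E.tn P) ≠ 0 := by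
  intro h
  obtain ⟨c, hc⟩ := exists_smul_eq_of_wedge_eq_zero (pt_ne_zero E P) h
  obtain ⟨a, ha0, ha⟩ := exists_Z_eq_one E P
  have h1 : dot a (E.pt P) = 0 := (E.pt_spec P a ha0).mpr (by
    show 0 < E.Z a P
    omega)
  have h2 : dot a (E.tn P) = 0 := by
    rw [hc]
    show dotProduct a (c • E.pt P) = 0
    rw [dotProduct_smul]
    show c • dot a (E.pt P) = 0
    rw [h1, smul_zero]
  have h3 : 2 ≤ E.Z a P := (E.tn_spec P a ha0).mp ⟨h1, h2⟩
  omega

/-- **G-PT.** -/
theorem ptStatement (E : EmbData K F) : Fermat.Agent.S17.Wall.PtStatement E :=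
  ⟨fun P => pt_ne_zero E P, fun P => onCone_pt E P,
    fun _ _ hPQ => wedge_pt_pt_ne_zero E hPQ, fun P => wedge_pt_tn_ne_zero E P⟩

/-- **G-CONE.** -/
theorem coneStatement (E : EmbData K F) : Fermat.Agent.S17.Wall.ConeStatement E :=
  fun _ hy0 hy => exists_pt_of_onCone E hy hy0

end Fermat.Agent.S17.H440
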